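import Fermat.Agent.FrobCriterion.Level
import Fermat.Agent.TraceNF.Zero

/-!
# A given trace has density zero from one prime

In `GL₂(ℤ / q)` at most a share `4 / q` of the matrices has a given trace, `q` a power of an odd
prime. So if the image of Galois is all of it at every power of one prime, a given trace of
Frobenius has natural density zero.
-/

set_option autoImplicit false
set_option linter.unusedSectionVars false

noncomputable section

namespace FA.TraceZeroNF

open WeierstrassCurve NumberField IsDedekindDomain Matrix Filter Topology FA.IsogenyNF FA.TraceNF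
  FA.Hecke FA.NaturalChebotarev FA.KatzNF
open scoped WeierstrassCurve.Affine Classical

universe u

/-- **Few invertible matrices have a given trace.** -/
theorem card_trace_le_pow {l q : ℕ} (hl : l.Prime) {n : ℕ} (hq : q = l ^ (n + 1)) (t : ZMod q) :
    Nat.card {M : GL (Fin 2) (ZMod q) // M.val.trace = t} ≤ q ^ 3 ∧
      q ^ 4 ≤ 4 * Nat.card (GL (Fin 2) (ZMod q)) := by
  have : NeZero q := ⟨hq ▸ pow_ne_zero _ hl.ne_zero⟩
  constructor
  · refine (Nat.card_le_card_of_injective
      (fun M : {M : GL (Fin 2) (ZMod q) // M.val.trace = t} =>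
        (M.1.val 0 0, M.1.val 0 1, M.1.val 1 0)) fun M M' e => Subtype.ext (Units.ext ?_)).trans ?_
    · simp only [Prod.mk.injEq] at e
      have h1 := M.2
      have h2 := M'.2
      rw [trace_fin_two] at h1 h2
      ext i j
      fin_cases i <;> fin_cases j
      · exact e.1
      · exact e.2.1
      · exact e.2.2
      · show M.1.val 1 1 = M'.1.val 1 1
        linear_combination h1 - h2 - e.1
    · simp only [Nat.card_prod, Nat.card_zmod]
      exact le_of_eq (by ring)
  · let f : (ZMod q)ˣ × ZMod q × ZMod q × (ZMod q)ˣ → GL (Fin 2) (ZMod q) := fun x =>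
      Matrix.GeneralLinearGroup.mk'' !![(x.1 : ZMod q), x.2.1; x.2.2.1,
        ((x.2.2.2 : ZMod q) + x.2.1 * x.2.2.1) * ↑x.1⁻¹] (by
        rw [det_fin_two_of, mul_comm (x.1 : ZMod q), mul_assoc, Units.inv_mul, mul_one,
          add_sub_cancel_right]
        exact x.2.2.2.isUnit)
    have hf : Function.Injective f := fun ⟨a, b, c, e⟩ ⟨a', b', c', e'⟩ heq => by
      have hv : ∀ i j, (f (a, b, c, e)).val i j = (f (a', b', c', e')).val i j :=
        fun i j => by rw [heq]
      have h00 : (a : ZMod q) = a' := hv 0 0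
      have h01 : b = b' := hv 0 1
      have h10 : c = c' := hv 1 0
      have h11 : ((e : ZMod q) + b * c) * ↑a⁻¹ = ((e' : ZMod q) + b' * c') * ↑a'⁻¹ := hv 1 1
      obtain rfl : a = a' := Units.ext h00
      subst h01 h10
      simpa [Units.ext_iff] using h11
    refine le_trans ?_ (Nat.mul_le_mul_left 4 (Nat.card_le_card_of_injective f hf))
    have hu : Nat.card (ZMod q)ˣ = l ^ n * (l - 1) := by
      rw [Nat.card_eq_fintype_card, ZMod.card_units_eq_totient, hq,
        Nat.totient_prime_pow_succ hl]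
    simp only [Nat.card_prod, Nat.card_zmod, hu]
    have h2 : l ≤ 2 * (l - 1) := by have := hl.two_le; omega
    calc q ^ 4 = q ^ 2 * (l ^ n * l) ^ 2 := by rw [hq, pow_succ l n]; ring
      _ ≤ q ^ 2 * (l ^ n * (2 * (l - 1))) ^ 2 := by gcongr
      _ = _ := by ring

variable {K : Type u} [Field K] [NumberField K] (W₀ : WeierstrassCurve (𝓞 K))
  [(W₀.map (algebraMap (𝓞 K) K)).IsElliptic]

local notation "W" => W₀.map (algebraMap (𝓞 K) K)
local notation "Kc" => AlgebraicClosure K

/-- **A given trace has density zero** with full image at the powers of one prime. -/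
theorem hasMean_trace_zero_of_prime {l : ℕ} (hl : l.Prime) (h5 : 5 ≤ l)
    (hd : ¬ (l : ℤ) ∣ NumberField.discr K) (hsl : FA.FrobCriterion.FullSL Kc (W) l) (t : ℤ) :
    HasMean (fun v => if frobTrace W₀ v = t then (1 : ℝ) else 0) 0 := by
  refine tendsto_order.mpr ⟨fun b hb => ?_, fun ε hε => ?_⟩
  · filter_upwards [eventually_ge_atTop 1] with x hx
    refine hb.trans_le ?_
    rw [smul_eq_mul]
    exact mul_nonneg (div_nonneg (Real.log_nonneg hx) (by linarith))
      (Finset.sum_nonneg fun v _ => by split_ifs <;> norm_num)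
  obtain ⟨n, hn⟩ := pow_unbounded_of_one_lt (4 / ε) (show (1 : ℝ) < l by exact_mod_cast hl.one_lt)
  set q := l ^ (n + 1) with hqdef
  have hq0 : q ≠ 0 := pow_ne_zero _ hl.ne_zero
  have hqε : 4 < ε * (q : ℝ) := by
    rw [div_lt_iff₀ hε] at hn
    refine hn.trans_le ?_
    rw [mul_comm, hqdef, Nat.cast_pow]
    exact mul_le_mul_of_nonneg_left
      (pow_le_pow_right₀ (by exact_mod_cast hl.one_le) n.le_succ) hε.le
  have hl' : ∀ p ∈ q.primeFactors, p = l := fun p hp => by
    rw [hqdef, Nat.primeFactors_pow_succ, hl.primeFactors, Finset.mem_singleton] at hp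
    exact hp
  obtain ⟨P, Q, h⟩ := exists_torGen_level (E := W) (Kb := Kc) hq0
  have htop := FA.FrobCriterion.range_eq_top hq0 h fun M hM =>
    FA.FrobCriterion.gl_level hq0 (fun p hp => hl' p hp ▸ h5) (fun p hp => hl' p hp ▸ hd)
      (fun p hp => hl' p hp ▸ hsl) h hM
  have hm := hasMean_image W₀ hq0 h {p | p.1 = (t : ZMod q)}
  refine (hm.eventually (eventually_lt_nhds (b := ε) ?_)).mp ?_
  · let e : (h.rep hq0).toHomUnits.range ≃ GL (Fin 2) (ZMod q) :=
      Equiv.subtypeUnivEquiv fun x => htop ▸ Subgroup.mem_top x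
    rw [Nat.card_congr e, Nat.card_congr (e.subtypeEquiv
      (p := fun g => (g.1.val.trace, g.1.val.det) ∈ {p | p.1 = (t : ZMod q)})
      (q := fun M => M.val.trace = (t : ZMod q)) fun _ => Iff.rfl)]
    obtain ⟨hu, hlow⟩ := card_trace_le_pow hl hqdef (t : ZMod q)
    have : NeZero q := ⟨hq0⟩
    have hpos : (0 : ℝ) < Nat.card (GL (Fin 2) (ZMod q)) := by exact_mod_cast Nat.card_pos
    rw [div_lt_iff₀ hpos]
    have hu' : (Nat.card {M : GL (Fin 2) (ZMod q) // M.val.trace = (t : ZMod q)} : ℝ) ≤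
        (q : ℝ) ^ 3 := by exact_mod_cast hu
    have hlow' : (q : ℝ) ^ 4 ≤ 4 * (Nat.card (GL (Fin 2) (ZMod q)) : ℝ) := by exact_mod_cast hlow
    have hq3 : (0 : ℝ) < (q : ℝ) ^ 3 := by positivity
    nlinarith [mul_le_mul_of_nonneg_left hlow' hε.le, mul_lt_mul_of_pos_right hqε hq3]
  filter_upwards [eventually_ge_atTop 1] with x hx hlt
  refine lt_of_le_of_lt ?_ hlt
  rw [smul_eq_mul, smul_eq_mul]
  refine mul_le_mul_of_nonneg_left (Finset.sum_le_sum fun v _ => ?_)
    (div_nonneg (Real.log_nonneg hx) (by linarith))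
  split_ifs with h1 h2 h3
  · exact le_rfl
  · exact absurd (show (frobTrace W₀ v : ZMod q) = (t : ZMod q) by rw [h1]) h2
  · exact zero_le_one
  · exact le_rfl

/-- The supersingular places have density zero if those of trace zero have. -/
theorem hasMean_supersingular_of_zero
    (h0 : HasMean (fun v => if frobTrace W₀ v = 0 then (1 : ℝ) else 0) 0) :
    HasMean (fun v => if ∃ p : ℕ, p.Prime ∧ (p : 𝓞 K) ∈ v.asIdeal ∧ (p : ℤ) ∣ frobTrace W₀ v
        then (1 : ℝ) else 0) 0 := by
  refine hasMean_congr ({v | W₀.Δ ∈ v.asIdeal} ∪ {v | ((6 : ℕ) : 𝓞 K) ∈ v.asIdeal})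
    ((finite_mem (Δ_ne_zero W₀)).union (finite_mem (Nat.cast_ne_zero.2 (by norm_num)))) (B := 1)
    (fun v => by split_ifs <;> norm_num) (fun v hv hprime => ?_) h0
  simp only [Set.mem_union, Set.mem_ofPred_eq, not_or] at hv
  have hqv : ((Ideal.absNorm v.asIdeal : ℕ) : 𝓞 K) ∈ v.asIdeal := Ideal.absNorm_mem _
  have hq5 : 5 ≤ Ideal.absNorm v.asIdeal := by
    by_contra hlt
    push Not at hlt
    refine hv.2 ?_
    have hd : Ideal.absNorm v.asIdeal ∣ 6 := by
      revert hprime
      interval_cases h : Ideal.absNorm v.asIdeal <;> norm_num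
    obtain ⟨c, hc⟩ := hd
    rw [hc, Nat.cast_mul]
    exact v.asIdeal.mul_mem_right _ hqv
  refine if_congr ⟨fun h => ?_, fun h => ⟨_, hprime, hqv, h ▸ dvd_zero _⟩⟩ rfl rfl
  obtain ⟨p, hp, hpv, hd⟩ := h
  have hpq : p = Ideal.absNorm v.asIdeal := by
    by_contra hne
    refine v.isPrime.ne_top ((Ideal.eq_top_iff_one _).2 ?_)
    obtain ⟨a, b, hab⟩ := Nat.isCoprime_iff_coprime.2 ((Nat.coprime_primes hp hprime).2 hne)
    have e : (1 : 𝓞 K) =
        (a : 𝓞 K) * (p : 𝓞 K) + (b : 𝓞 K) * (Ideal.absNorm v.asIdeal : 𝓞 K) := by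
      have := congrArg (Int.cast : ℤ → 𝓞 K) hab
      push_cast at this
      exact this.symm
    rw [e]
    exact add_mem (v.asIdeal.mul_mem_left _ hpv) (v.asIdeal.mul_mem_left _ hqv)
  subst hpq
  obtain ⟨c, hc⟩ := hd
  have hH := frobTrace_sq_le W₀ hv.1
  rcases eq_or_ne c 0 with rfl | hc0
  · rw [hc, mul_zero]
  exfalso
  have hc1 : 1 ≤ c ^ 2 := by nlinarith [mul_self_pos.2 hc0]
  have hq5' : (5 : ℤ) ≤ Ideal.absNorm v.asIdeal := by exact_mod_cast hq5
  rw [hc, mul_pow] at hH
  nlinarith [mul_le_mul_of_nonneg_left hc1 (sq_nonneg (Ideal.absNorm v.asIdeal : ℤ))]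

end FA.TraceZeroNF

end
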